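import Fermat.Agent.GreavesForms.Tail

/-!
# The density of squarefree values of a binary form

The sieve by the primes up to `P` gives `∏_{p ≤ P} (1 - N_{p²} / p⁴)`; the tail is negligible.
-/

set_option autoImplicit false

noncomputable section

open Finset Filter MvPolynomial
open scoped Classical Topology

namespace FA.GreavesForms

open FA.ThinSets (intBox mem_intBox)
open FA.SquarefreeMulti
open FA.Ekedahl FA.DiagonalDensity

variable {f : Polynomial ℤ} {e : ℕ}

/-- The binary form as a polynomial. -/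
def formPoly (e : ℕ) (f : Polynomial ℤ) : MvPolynomial (Fin 2) ℤ :=
  X 1 ^ e * ∑ i ∈ range (f.natDegree + 1), C (f.coeff i) * X 0 ^ i * X 1 ^ (f.natDegree - i)

theorem eval_formPoly (v : Fin 2 → ℤ) :
    eval v (formPoly e f) = formValue e f (v 0) (v 1) := by
  simp [formPoly, formValue, Thue.form, map_sum]

theorem formPoly_ne_zero (hf : f ≠ 0) : formPoly e f ≠ 0 := by
  intro h
  refine hf (Polynomial.funext fun x => ?_)
  have h1 := congrArg (eval ![x, 1]) h
  rw [eval_formPoly, map_zero] at h1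
  simpa [formValue, Thue.form, Polynomial.eval_eq_sum_range] using h1

/-- **The density of squarefree values**, given the bound for the huge primes. -/
theorem tendsto_squarefree_values_of (hsep : (f.map (Int.castRingHom ℚ)).Separable) (he : e ≤ 1)
    (hhuge : ∀ g : Polynomial ℤ, Irreducible g → g ∣ f → 4 < g.natDegree → ∀ η : ℝ, 0 < η →
      ∃ L : ℕ, ∀ B : ℕ, (((intBox 2 B).filter fun v => IsCoprime (v 0) (v 1) ∧ v 1 ≠ 0 ∧
        ∃ p : ℕ, p.Prime ∧ L * B ^ 2 < p ∧ (p : ℤ) ^ 2 ∣ Thue.form g (v 0) (v 1)).card : ℝ) ≤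
          η * (B : ℝ) ^ 2) :
    Tendsto (fun B : ℕ => ((sfPoints (formPoly e f) B).card : ℝ) / (2 * (B : ℝ) + 1) ^ 2) atTop
      (𝓝 (sqDensity (formPoly e f))) := by
  set F := formPoly e f
  have hf : f ≠ 0 := fun h => hsep.ne_zero (by rw [h, Polynomial.map_zero])
  have hF0 : F ≠ 0 := formPoly_ne_zero hf
  rw [Metric.tendsto_atTop]
  intro ε hε
  obtain ⟨M₁, hM₁⟩ :=
    exists_eventually_badPoints hsep he hhuge (show 0 < ε / 4 by positivity)
  obtain ⟨P, hP1, hP2⟩ : ∃ P : ℕ, M₁ ≤ P ∧ dist (sqPartial F P) (sqDensity F) < ε / 4 :=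
    ((eventually_ge_atTop _).and (tendsto_sqPartial.eventually
      (Metric.ball_mem_nhds _ (by positivity)))).exists
  have hzero : ∀ᶠ B : ℕ in atTop, ((F.totalDegree : ℝ) + 1) / (B : ℝ) < ε / 4 :=
    (tendsto_const_div_atTop_nhds_zero_nat _).eventually (Iio_mem_nhds (by positivity))
  obtain ⟨B₀, hB₀⟩ := eventually_atTop.mp (((tendsto_sifted (f := F) (T := (P + 1).primesBelow)
    fun p hp => Nat.prime_of_mem_primesBelow hp).eventually
      (Metric.ball_mem_nhds _ (show 0 < ε / 4 by positivity))).and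
    ((hM₁ P hP1).and (hzero.and ((eventually_sfPoints_le (f := F) (η := ε / 2)
      (by positivity)).and (eventually_ge_atTop 1)))))
  refine ⟨B₀, fun B hB => ?_⟩
  obtain ⟨h8, h6, h7, h4, hB1⟩ := hB₀ B hB
  have hD : (0 : ℝ) < (2 * (B : ℝ) + 1) ^ 2 := by positivity
  set Z := (intBox 2 B).filter fun x => eval x F = 0
  have hZ : (Z.card : ℝ) / (2 * (B : ℝ) + 1) ^ 2 < ε / 4 := by
    have h : (Z.card : ℝ) * (2 * (B : ℝ) + 1) ≤
        F.totalDegree * (2 * (B : ℝ) + 1) ^ 2 := by
      exact_mod_cast card_zeros_box_mul_le hF0 B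
    rw [div_lt_iff₀ hD]
    rw [div_lt_iff₀ (by positivity)] at h7
    nlinarith [mul_lt_mul_of_pos_right h7 hD]
  have hsub : sifted F (P + 1).primesBelow B ⊆
      sfPoints F B ∪ (badPoints e f P B ∪ Z) := fun x hx => by
    obtain ⟨hx, h⟩ := Finset.mem_filter.mp hx
    by_cases hz : eval x F = 0
    · exact mem_union_right _ (mem_union_right _ (mem_filter.2 ⟨hx, hz⟩))
    by_cases hs : Squarefree (eval x F)
    · exact mem_union_left _ (mem_filter.2 ⟨hx, hs⟩)
    refine mem_union_right _ (mem_union_left _ (mem_filter.2 ⟨hx, ?_, fun p hp hle => ?_, ?_⟩))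
    · rwa [← eval_formPoly]
    · rw [← eval_formPoly]
      exact h p (Nat.mem_primesBelow.mpr ⟨Nat.lt_succ_of_le hle, hp⟩)
    · rwa [← eval_formPoly]
  have h5 := div_le_div_of_nonneg_right (c := (2 * (B : ℝ) + 1) ^ 2)
    (Nat.cast_le (α := ℝ).mpr ((card_le_card hsub).trans ((card_union_le _ _).trans
      (Nat.add_le_add_left (card_union_le _ _) _)))) hD.le
  push_cast at h5
  rw [add_div, add_div] at h5
  have h6' : ((badPoints e f P B).card : ℝ) / (2 * (B : ℝ) + 1) ^ 2 ≤ ε / 4 := by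
    rw [div_le_iff₀ hD]
    refine h6.trans (mul_le_mul_of_nonneg_left ?_ (by positivity))
    have : (0 : ℝ) ≤ B := Nat.cast_nonneg B
    nlinarith
  have h8' := abs_lt.mp ((Real.dist_eq _ _).symm.trans_lt (Metric.mem_ball.mp h8))
  have h9 := abs_lt.mp ((Real.dist_eq _ _).symm.trans_lt hP2)
  unfold sqPartial at h9
  rw [Real.dist_eq, abs_lt]
  constructor <;> linarith

/-- **The density of squarefree values**, no factor of degree over four. -/
theorem tendsto_squarefree_values (hsep : (f.map (Int.castRingHom ℚ)).Separable) (he : e ≤ 1)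
    (hfac : ∀ g : Polynomial ℤ, Irreducible g → g ∣ f → g.natDegree ≤ 4) :
    Tendsto (fun B : ℕ => ((sfPoints (formPoly e f) B).card : ℝ) / (2 * (B : ℝ) + 1) ^ 2) atTop
      (𝓝 (sqDensity (formPoly e f))) :=
  tendsto_squarefree_values_of hsep he fun g h1 h2 h3 => absurd (hfac g h1 h2) (not_le.2 h3)

/-- At a large prime the local factor is at least `1 - C / p²`. -/
theorem sqFactor_ge (he : e ≤ 1) {p R : ℕ} (hp : p.Prime) (hlead : ¬(p : ℤ) ∣ f.leadingCoeff)
    (hR : SquarefreeValues.rootCount f p ≤ R) :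
    1 - 18 * ((R : ℝ) + 2) / (p : ℝ) ^ 2 ≤ sqFactor (formPoly e f) p := by
  set F := formPoly e f
  set B := p ^ 2 with hB
  have : NeZero (p ^ 2) := ⟨pow_ne_zero _ hp.ne_zero⟩
  have h := prime_points_card (B := B) he (Nat.one_le_pow _ _ hp.pos) hp hlead hR
  have hN : Nat.card {c : Fin 2 → ZMod (p ^ 2) //
      eval c (F.map (Int.castRingHom (ZMod (p ^ 2)))) = 0} ≤
      ((intBox 2 B).filter fun v => (p : ℤ) ^ 2 ∣ formValue e f (v 0) (v 1)).card := by
    rw [← Nat.card_eq_finsetCard]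
    refine Nat.card_le_card_of_injective (fun c => ⟨fun i => ((c.1 i).val : ℤ),
      mem_filter.2 ⟨mem_intBox.2 fun i => ?_, ?_⟩⟩) fun c c' h => ?_
    · rw [Nat.abs_cast, Nat.cast_le]
      exact (ZMod.val_lt _).le
    · rw [← Nat.cast_pow, ← ZMod.intCast_zmod_eq_zero_iff_dvd]
      have e1 := map_eval (Int.castRingHom (ZMod (p ^ 2))) (fun i => ((c.1 i).val : ℤ)) F
      rw [eval_formPoly, eq_intCast] at e1
      rw [e1]
      refine Eq.trans ?_ c.2
      congr 2
      funext i
      simp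
    · refine Subtype.ext (funext fun i => ZMod.val_injective _ ?_)
      have h' := congrFun (congrArg Subtype.val h) i
      exact Int.natCast_inj.1 h'
  unfold sqFactor
  rw [sub_le_sub_iff_left]
  refine (div_le_div_of_nonneg_right ((Nat.cast_le.2 hN).trans h) (by positivity)).trans_eq ?_
  have hp0 : (p : ℝ) ≠ 0 := Nat.cast_ne_zero.2 hp.ne_zero
  rw [hB]
  push_cast
  field_simp
  ring

/-- **The density is positive iff no square of a prime divides every value**, in every degree. -/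
theorem density_pos_iff (hsep : (f.map (Int.castRingHom ℚ)).Separable) (he : e ≤ 1) :
    0 < sqDensity (formPoly e f) ↔
      ∀ p : ℕ, p.Prime → ∃ x y : ℤ, ¬(p : ℤ) ^ 2 ∣ formValue e f x y := by
  set F := formPoly e f
  have hf : f ≠ 0 := fun h => hsep.ne_zero (by rw [h, Polynomial.map_zero])
  refine ⟨fun h p hp => ?_, fun hno => ?_⟩
  · by_contra hall
    push Not at hall
    exact h.ne' (sqDensity_eq_zero hp fun x => by rw [eval_formPoly]; exact hall _ _)
  have hfac' : ∀ p : ℕ, p.Prime → 0 < sqFactor F p := fun p hp => by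
    have : NeZero (p ^ 2) := ⟨pow_ne_zero _ hp.ne_zero⟩
    obtain ⟨x, y, hxy⟩ := hno p hp
    have hx : ¬(p : ℤ) ^ 2 ∣ eval ![x, y] F := by
      rw [eval_formPoly]; simpa using hxy
    rw [sqFactor_eq, ← classDensity_goodClasses]
    have : Nonempty (goodClasses F F (p ^ 2)) :=
      ⟨⟨reduce (p ^ 2) ![x, y], reduce_mem_goodClasses.mpr fun h => hx (by
        have := h.1
        rwa [Nat.cast_pow] at this)⟩⟩
    exact div_pos (Nat.cast_pos.mpr Nat.card_pos)
      (pow_pos (Nat.cast_pos.mpr (pow_pos hp.pos 2)) _)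
  -- at the large primes the factors are close to `1`
  obtain ⟨R, hR⟩ := SquarefreeValues.exists_rootCount_bound hsep
  have hlead : f.leadingCoeff ≠ 0 := Polynomial.leadingCoeff_ne_zero.2 hf
  set C : ℝ := 18 * ((R : ℝ) + 2) with hC
  obtain ⟨M, hM1, hM2⟩ : ∃ M : ℕ, f.leadingCoeff.natAbs ≤ M ∧ 2 * C ≤ M := by
    obtain ⟨M, hM⟩ := exists_nat_ge (2 * C)
    exact ⟨f.leadingCoeff.natAbs + M, by omega, by push_cast; linarith⟩
  have hC0 : 0 < C := by positivity
  have hM0 : (0 : ℝ) < M := by linarith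
  have hpos : 0 < sqPartial F M :=
    Finset.prod_pos fun p hp => hfac' p (Nat.prime_of_mem_primesBelow hp)
  refine lt_of_lt_of_le (mul_pos hpos one_half_pos)
    (ge_of_tendsto tendsto_sqPartial (eventually_atTop.mpr ⟨M, fun P hP => ?_⟩))
  have hsub : (M + 1).primesBelow ⊆ (P + 1).primesBelow := fun p hp => by
    rw [Nat.mem_primesBelow] at hp ⊢
    exact ⟨by omega, hp.2⟩
  conv_rhs => rw [sqPartial, ← Finset.prod_sdiff hsub, mul_comm]
  refine mul_le_mul_of_nonneg_left ?_ hpos.le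
  set T := (P + 1).primesBelow \ (M + 1).primesBelow
  have hT : ∀ p ∈ T, p.Prime ∧ M < p := fun p hp => by
    obtain ⟨hp1, hp2⟩ := Finset.mem_sdiff.mp hp
    have h1 := Nat.mem_primesBelow.mp hp1
    refine ⟨h1.2, ?_⟩
    by_contra hlt
    exact hp2 (Nat.mem_primesBelow.mpr ⟨by omega, h1.2⟩)
  have key : ∀ s : Finset ℕ, (∀ p ∈ s, p.Prime ∧ M < p) →
      1 - ∑ p ∈ s, C / (p : ℝ) ^ 2 ≤ ∏ p ∈ s, sqFactor F p := by
    intro s
    induction s using Finset.induction_on with
    | empty => simp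
    | insert a s ha ih =>
      intro hs
      rw [Finset.sum_insert ha, Finset.prod_insert ha]
      obtain ⟨ha', haM⟩ := hs a (mem_insert_self a s)
      have h1 := sqFactor_ge he ha' (fun h => absurd (Nat.le_of_dvd (Int.natAbs_pos.2 hlead)
        (Int.natCast_dvd.1 h)) (by omega)) (hR a ha')
      rw [← hC] at h1
      have h2 := sqFactor_le_one (f := F) a
      have h3 : ∏ p ∈ s, sqFactor F p ≤ 1 := Finset.prod_le_one
        (fun p hp => sqFactor_nonneg (hs p (mem_insert_of_mem hp)).1) fun p _ => sqFactor_le_one p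
      have h4 : 0 ≤ ∏ p ∈ s, sqFactor F p :=
        Finset.prod_nonneg fun p hp => sqFactor_nonneg (hs p (mem_insert_of_mem hp)).1
      have h5 := ih fun p hp => hs p (mem_insert_of_mem hp)
      have h6 : (0 : ℝ) ≤ C / (a : ℝ) ^ 2 := by positivity
      nlinarith
  refine le_trans ?_ (key T hT)
  have hsum : ∑ p ∈ T, C / (p : ℝ) ^ 2 ≤ C * (M : ℝ)⁻¹ := by
    simp only [div_eq_mul_inv C, ← mul_sum]
    refine mul_le_mul_of_nonneg_left ?_ hC0.le
    refine (sum_le_sum_of_subset_of_nonneg (t := Ioc M P) (fun p hp => mem_Ioc.2 ⟨(hT p hp).2,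
      by have := Nat.mem_primesBelow.1 (mem_sdiff.1 hp).1; omega⟩)
      fun p _ _ => by positivity).trans ?_
    refine (sum_Ioc_inv_sq_le_sub (α := ℝ) (Nat.cast_pos.1 hM0).ne' hP).trans ?_
    linarith [show (0 : ℝ) ≤ ((P : ℕ) : ℝ)⁻¹ by positivity]
  have : C * (M : ℝ)⁻¹ ≤ 1 / 2 := by
    rw [mul_inv_le_iff₀ hM0]
    linarith
  linarith

end FA.GreavesForms

end
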