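import Fermat.Agent.GreavesForms.Density
import Fermat.Agent.TwistHalf.Exceptional
import Mathlib.RingTheory.Polynomial.Cyclotomic.Roots

/-!
# Squarefree sums of two fourth powers

`x⁴ + y⁴` is the form of the eighth cyclotomic polynomial. Its squarefree values have positive
density, and off the exceptional pairs a value has boundedly many pairs (Erdős–Mahler).
-/

set_option autoImplicit false

noncomputable section

open Polynomial Finset Filter
open scoped Classical Topology

namespace FA.GreavesForms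

open FA.ThinSets (intBox mem_intBox)
open FA.SquarefreeMulti (sfPoints sqDensity)
open FA.ErdosMahler (value pairs goodSet)

/-- The polynomial of `x⁴ + y⁴`. -/
def quartic : ℤ[X] := X ^ 4 + 1

theorem quartic_eq_cyclotomic : quartic = cyclotomic 8 ℤ := by
  have h := cyclotomic_prime_pow_eq_geom_sum (R := ℤ) (p := 2) (n := 2) Nat.prime_two
  norm_num [sum_range_succ] at h
  rw [h, quartic]
  ring

theorem quartic_monic : quartic.Monic := by rw [quartic]; monicity!

theorem quartic_natDegree : quartic.natDegree = 4 := by rw [quartic]; compute_degree!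

theorem quartic_irreducible : Irreducible quartic :=
  quartic_eq_cyclotomic ▸ cyclotomic.irreducible (by norm_num)

theorem quartic_separable : (quartic.map (Int.castRingHom ℚ)).Separable :=
  ((IsPrimitive.Int.irreducible_iff_irreducible_map_cast quartic_monic.isPrimitive).1
    quartic_irreducible).separable

theorem quartic_factors (g : ℤ[X]) (_ : Irreducible g) (h : g ∣ quartic) : g.natDegree ≤ 4 :=
  (natDegree_le_of_dvd h quartic_monic.ne_zero).trans_eq quartic_natDegree

theorem form_quartic (x y : ℤ) : Thue.form quartic x y = x ^ 4 + y ^ 4 := by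
  rw [Thue.form, quartic_natDegree]
  simp [sum_range_succ, quartic, coeff_one]
  ring

theorem formValue_quartic (x y : ℤ) : formValue 0 quartic x y = x ^ 4 + y ^ 4 := by
  rw [formValue, pow_zero, one_mul, form_quartic]

/-- **A positive density.** -/
theorem quartic_density_pos : 0 < sqDensity (formPoly 0 quartic) :=
  (density_pos_iff quartic_separable (Nat.zero_le 1)).2 fun p hp => ⟨1, 0, fun h => by
    rw [formValue_quartic] at h
    norm_num at h
    exact (Nat.prime_iff_prime_int.1 hp).not_isUnit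
      (isUnit_of_dvd_one ((dvd_pow_self _ two_ne_zero).trans h))⟩

/-- The pairs of positive integers up to `B` with a squarefree value. -/
def squarefreePairs (B : ℕ) : Finset (ℕ × ℕ) :=
  (pairs 1 B).filter fun w => w.1 ≤ B ∧ w.2 ≤ B ∧ Squarefree (value quartic w)

/-- A positive proportion of the pairs has a squarefree value. -/
theorem eventually_squarefreePairs : ∀ᶠ B : ℕ in atTop,
    sqDensity (formPoly 0 quartic) / 4 * (B : ℝ) ^ 2 ≤ (squarefreePairs B).card := by
  set σ := sqDensity (formPoly 0 quartic)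
  have hσ : 0 < σ := quartic_density_pos
  filter_upwards [(tendsto_squarefree_values quartic_separable (Nat.zero_le 1)
      quartic_factors).eventually (Ioi_mem_nhds (half_lt_self hσ)),
    (tendsto_natCast_atTop_atTop (R := ℝ)).eventually (eventually_ge_atTop (6 / σ)),
    eventually_ge_atTop 1] with B hB hBσ hB1
  set S := sfPoints (formPoly 0 quartic) B
  set A := (intBox 2 B).filter fun v => v 0 = 0 ∨ v 1 = 0
  set I := Finset.Icc (-(B : ℤ)) B
  have hA : A.card ≤ 2 * (2 * B + 1) := by
    have hI : I.card = 2 * B + 1 := by rw [Int.card_Icc]; omega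
    refine (card_le_card_of_injOn (fun v => if v 0 = 0 then (true, v 1) else (false, v 0))
      (t := univ ×ˢ I) (fun v hv => ?_) fun v hv v' hv' h => ?_).trans_eq
        (by rw [card_product, hI, card_univ, Fintype.card_bool])
    · obtain ⟨hx, hy⟩ := mem_box.1 (mem_filter.1 hv).1
      simp only [mem_coe, mem_product, mem_univ, true_and]
      split
      · exact mem_Icc.2 (abs_le.1 hy)
      · exact mem_Icc.2 (abs_le.1 hx)
    · simp only at h
      by_cases h0 : v 0 = 0 <;> by_cases h0' : v' 0 = 0 <;>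
        simp only [h0, h0', if_true, if_false, Prod.mk.injEq, reduceCtorEq, false_and,
          true_and] at h
      · exact pair_ext (h0.trans h0'.symm) h
      · refine pair_ext h ?_
        rw [((mem_filter.1 hv).2.resolve_left h0), ((mem_filter.1 hv').2.resolve_left h0')]
  have hS : S.card ≤ (squarefreePairs B).card * 4 + A.card := by
    refine le_trans (card_le_card (t := (S \ A) ∪ A) (fun v hv => by
      by_cases h : v ∈ A
      · exact mem_union_right _ h
      · exact mem_union_left _ (mem_sdiff.2 ⟨hv, h⟩))) ((card_union_le _ _).trans ?_)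
    refine Nat.add_le_add_right ?_ _
    refine (card_le_card_of_injOn
      (fun v => (((v 0).natAbs, (v 1).natAbs), decide (0 < v 0), decide (0 < v 1)))
      (t := squarefreePairs B ×ˢ (univ : Finset (Bool × Bool))) (fun v hv => ?_)
      fun v hv v' hv' h => ?_).trans_eq (by rw [card_product, card_univ, Fintype.card_prod,
        Fintype.card_bool])
    · obtain ⟨hvS, hvA⟩ := mem_sdiff.1 hv
      obtain ⟨hbox, hsq⟩ := mem_filter.1 hvS
      rw [eval_formPoly, formValue_quartic] at hsq
      obtain ⟨hx, hy⟩ := mem_box.1 hbox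
      have hne : v 0 ≠ 0 ∧ v 1 ≠ 0 := by
        rw [← not_or]
        exact fun h => hvA (mem_filter.2 ⟨hbox, h⟩)
      rw [abs_le] at hx hy
      have hval : value quartic ((v 0).natAbs, (v 1).natAbs) = (v 0 ^ 4 + v 1 ^ 4).natAbs := by
        rw [value, form_quartic]
        congr 1
        simp only [Int.natCast_natAbs]
        rw [Even.pow_abs (by decide), Even.pow_abs (by decide)]
      have hsq' : Squarefree (value quartic ((v 0).natAbs, (v 1).natAbs)) := by
        rw [hval, Int.squarefree_natAbs]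
        exact hsq
      have hcop : (v 0).natAbs.Coprime (v 1).natAbs := by
        by_contra hc
        obtain ⟨p, hp, hpx, hpy⟩ := Nat.Prime.not_coprime_iff_dvd.1 hc
        have h2 : ((p * p : ℕ) : ℤ) ∣ v 0 ^ 4 + v 1 ^ 4 := by
          push_cast
          rw [← sq]
          exact dvd_add ((pow_dvd_pow _ (by norm_num)).trans
              (pow_dvd_pow_of_dvd (Int.natCast_dvd.2 hpx) 4))
            ((pow_dvd_pow _ (by norm_num)).trans
              (pow_dvd_pow_of_dvd (Int.natCast_dvd.2 hpy) 4))
        push_cast at h2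
        exact (Nat.prime_iff_prime_int.1 hp).not_isUnit (hsq _ h2)
      refine mem_product.2 ⟨mem_filter.2 ⟨mem_filter.2 ⟨mem_product.2 ⟨mem_Icc.2 ⟨?_, ?_⟩,
        mem_image.2 ⟨(v 1).natAbs - 1, mem_range.2 ?_, ?_⟩⟩, hcop⟩, ?_, ?_, hsq'⟩, mem_univ _⟩ <;>
        (try simp only) <;> omega
    · simp only [Prod.mk.injEq, decide_eq_decide] at h
      refine pair_ext ?_ ?_ <;> omega
  have hD : (0 : ℝ) < (2 * (B : ℝ) + 1) ^ 2 := by positivity
  rw [lt_div_iff₀ hD] at hB
  have hS' : (S.card : ℝ) ≤ (squarefreePairs B).card * 4 + A.card := by exact_mod_cast hS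
  have hA' : (A.card : ℝ) ≤ 2 * (2 * (B : ℝ) + 1) := by exact_mod_cast hA
  have hB1' : (1 : ℝ) ≤ B := Nat.one_le_cast.2 hB1
  rw [div_le_iff₀ hσ] at hBσ
  nlinarith

/-- **Many squarefree sums of two fourth powers.** -/
theorem eventually_fourth_powers_ge : ∃ c : ℝ, 0 < c ∧ ∀ᶠ N : ℕ in atTop,
    c * Real.sqrt N ≤
      ({m : ℕ | m ≤ N ∧ Squarefree m ∧ ∃ x y : ℕ, x ^ 4 + y ^ 4 = m}.ncard : ℝ) := by
  set σ := sqDensity (formPoly 0 quartic)
  have hσ : 0 < σ := quartic_density_pos
  obtain ⟨δ, hδ, hexc⟩ := TwistHalf.exists_eventually_exceptional quartic_monic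
    (by rw [quartic_natDegree]; norm_num) (show 0 < σ / 8 by positivity)
  obtain ⟨C, hC, hfib⟩ := ErdosMahler.eventually_goodSet_fibre quartic_irreducible
    (by rw [quartic_natDegree]; norm_num) hδ
  refine ⟨σ / (128 * C), by positivity, ?_⟩
  have ht : Tendsto (fun N : ℕ => ((N : ℝ) / 2) ^ ((1 : ℝ) / 4)) atTop atTop :=
    (tendsto_rpow_atTop (by norm_num)).comp
      (tendsto_natCast_atTop_atTop.atTop_div_const two_pos)
  filter_upwards [(tendsto_nat_floor_atTop.comp ht).eventually
      (eventually_squarefreePairs.and (hexc.and hfib)),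
    ht.eventually (eventually_ge_atTop 2)] with N hN h2
  set t := ((N : ℝ) / 2) ^ ((1 : ℝ) / 4) with ht'
  simp only [Function.comp_apply, ← ht'] at hN
  obtain ⟨hP, hE, hF⟩ := hN
  set B := ⌊t⌋₊
  have hn : (B : ℝ) ≤ t := Nat.floor_le (by linarith)
  have hn' : t / 2 ≤ B := by linarith [Nat.lt_floor_add_one t]
  have ht4 : t ^ 4 = (N : ℝ) / 2 := by
    rw [ht', ← Real.rpow_natCast _ 4, ← Real.rpow_mul (by positivity)]
    norm_num
  have hlead : quartic.leadingCoeff.natAbs = 1 := by rw [quartic_monic.leadingCoeff]; rfl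
  set G := squarefreePairs B \ TwistHalf.exceptional quartic δ B
  have hG : G ⊆ goodSet quartic δ B := fun w hw => by
    obtain ⟨hw1, hw2⟩ := mem_sdiff.1 hw
    obtain ⟨hw3, hx, hy, hsq⟩ := mem_filter.1 hw1
    obtain ⟨a, -, b, -, -⟩ := ErdosMahler.mem_pairs hw3
    refine mem_filter.2 ⟨hlead ▸ hw3, not_lt.1 fun h => hw2 (mem_union_left _
      (mem_filter.2 ⟨hw3, hsq, h⟩)), not_le.1 fun h => hw2 (mem_union_right _ (mem_filter.2
      ⟨mem_product.2 ⟨mem_Icc.2 ⟨a, hx⟩, mem_Icc.2 ⟨b, hy⟩⟩, h⟩))⟩
  have hGcard : σ / 8 * (B : ℝ) ^ 2 ≤ (G.card : ℝ) := by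
    have h : ((squarefreePairs B).card : ℝ) ≤
        (G.card : ℝ) + ((TwistHalf.exceptional quartic δ B).card : ℝ) := by
      exact_mod_cast card_le_card_sdiff_add_card
    linarith
  have hcard : G.card ≤ C * (G.image (value quartic)).card :=
    card_le_mul_card_image _ C fun m _ =>
      (card_le_card (filter_subset_filter _ hG)).trans (hF m)
  have hset : (G.image (value quartic)).card ≤
      {m : ℕ | m ≤ N ∧ Squarefree m ∧ ∃ x y : ℕ, x ^ 4 + y ^ 4 = m}.ncard := by
    rw [← Set.ncard_coe_finset]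
    refine Set.ncard_le_ncard (fun m hm => ?_) ((Set.finite_Iic N).subset fun m hm => hm.1)
    obtain ⟨w, hw, rfl⟩ := mem_image.1 hm
    obtain ⟨-, hx, hy, hsq⟩ := mem_filter.1 (mem_sdiff.1 hw).1
    have hval : value quartic w = w.1 ^ 4 + w.2 ^ 4 := by
      rw [value, form_quartic]
      norm_cast
    refine ⟨?_, hsq, w.1, w.2, hval.symm⟩
    refine Nat.cast_le (α := ℝ).1 ?_
    rw [hval]
    push_cast
    have hx' : (w.1 : ℝ) ≤ t := (Nat.cast_le.2 hx).trans hn
    have hy' : (w.2 : ℝ) ≤ t := (Nat.cast_le.2 hy).trans hn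
    have := pow_le_pow_left₀ (Nat.cast_nonneg w.1) hx' 4
    have := pow_le_pow_left₀ (Nat.cast_nonneg w.2) hy' 4
    linarith
  have h4 : (G.card : ℝ) ≤
      C * ({m : ℕ | m ≤ N ∧ Squarefree m ∧ ∃ x y : ℕ, x ^ 4 + y ^ 4 = m}.ncard : ℝ) := by
    exact_mod_cast hcard.trans (Nat.mul_le_mul_left C hset)
  rw [div_mul_eq_mul_div, div_le_iff₀ (by positivity)]
  have h3 : (t / 2) ^ 2 ≤ (B : ℝ) ^ 2 := pow_le_pow_left₀ (by linarith) hn' 2
  have h5 : Real.sqrt N ≤ 4 * t ^ 2 := by
    rw [Real.sqrt_le_left (by positivity)]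
    linarith [show (4 * t ^ 2) ^ 2 = 16 * t ^ 4 by ring, (Nat.cast_nonneg N : (0 : ℝ) ≤ N)]
  have h6 := mul_le_mul_of_nonneg_left h5 hσ.le
  have h7 := mul_le_mul_of_nonneg_left h3 (show 0 ≤ σ / 8 by positivity)
  linarith

end FA.GreavesForms

end
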