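import Fermat.Agent.SquarefreeMulti.Density
import Fermat.Agent.Thue.Equation

/-!
# Square divisors of the values of a binary form

For `F = y ^ e f (x, y)`, `e ≤ 1`: a prime `p ≤ 2 B` has `O (B² / p² + B)` points of `[-B, B]²`
with `p² ∣ F`, a larger one `O (1)` coprime points, two in one class being proportional. There
`p²` divides the value of a single irreducible factor, so `p = O (B²)` if none is of degree `> 4`.
-/

set_option autoImplicit false

noncomputable section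

open Polynomial Finset Filter
open scoped Classical Topology

namespace FA.GreavesForms

open FA.ThinSets (intBox mem_intBox card_intBox)
open FA.SquarefreeValues (rootCount)

variable {f : ℤ[X]} {e : ℕ}

/-- The value `y ^ e F (x, y)`. -/
def formValue (e : ℕ) (f : ℤ[X]) (x y : ℤ) : ℤ :=
  y ^ e * Thue.form f x y

/-- The residue of `x / y`. -/
def intRatio (d : ℕ) (x y : ℤ) : ℕ :=
  ((x : ZMod d) * (y : ZMod d)⁻¹).val

theorem intRatio_mul {d : ℕ} [NeZero d] {x y : ℤ} (hy : IsUnit (y : ZMod d)) :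
    (intRatio d x y : ZMod d) * y = x := by
  rw [intRatio, ZMod.natCast_zmod_val, mul_assoc, ZMod.inv_mul_of_unit _ hy, mul_one]

theorem form_zmod {d : ℕ} [NeZero d] (g : ℤ[X]) {x y : ℤ} (hy : IsUnit (y : ZMod d)) :
    (d : ℤ) ∣ Thue.form g x y ↔ (d : ℤ) ∣ g.eval (intRatio d x y : ℤ) := by
  rw [← ZMod.intCast_zmod_eq_zero_iff_dvd, ← ZMod.intCast_zmod_eq_zero_iff_dvd]
  have key : (Thue.form g x y : ZMod d) =
      (y : ZMod d) ^ g.natDegree * ((g.eval (intRatio d x y : ℤ) : ℤ) : ZMod d) := by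
    rw [eval_eq_sum_range, Thue.form]
    push_cast
    rw [mul_sum]
    refine sum_congr rfl fun i hi => ?_
    conv_lhs => rw [← intRatio_mul (x := x) hy]
    rw [mul_pow, show (y : ZMod d) ^ g.natDegree =
      (y : ZMod d) ^ i * (y : ZMod d) ^ (g.natDegree - i) by
        rw [← pow_add, Nat.add_sub_cancel' (Nat.lt_succ_iff.1 (mem_range.1 hi))]]
    ring
  rw [key, (hy.pow _).mul_right_eq_zero]

/-- A prime square dividing a product at a simple root divides one factor there. -/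
theorem sq_dvd_factor (s : Multiset ℤ[X]) {p r : ℤ} (hp : Prime p) (h : p ^ 2 ∣ s.prod.eval r)
    (h' : ¬p ∣ (derivative s.prod).eval r) : ∃ g ∈ s, p ^ 2 ∣ g.eval r := by
  induction s using Multiset.induction_on with
  | empty =>
    rw [Multiset.prod_zero, eval_one] at h
    exact absurd (isUnit_of_dvd_one ((dvd_pow_self p two_ne_zero).trans h)) hp.not_isUnit
  | cons a s ih =>
    rw [Multiset.prod_cons, eval_mul] at h
    rw [Multiset.prod_cons, derivative_mul, eval_add, eval_mul, eval_mul] at h'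
    by_cases ha : p ∣ a.eval r
    · have hs : ¬p ∣ s.prod.eval r := fun hs =>
        h' (dvd_add (hs.mul_left _) (ha.mul_right _))
      exact ⟨a, Multiset.mem_cons_self _ _,
        ((hp.coprime_iff_not_dvd.2 hs).pow_left).dvd_of_dvd_mul_right h⟩
    · have hs := ((hp.coprime_iff_not_dvd.2 ha).pow_left (m := 2)).dvd_of_dvd_mul_left h
      obtain ⟨g, hg, hgd⟩ := ih hs fun hd =>
        h' (dvd_add (((dvd_pow_self p two_ne_zero).trans hs).mul_left _) (hd.mul_left _))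
      exact ⟨g, Multiset.mem_cons_of_mem hg, hgd⟩

/-- The factors, and an integer whose prime divisors are exceptional. -/
theorem exists_factors (hsep : (f.map (Int.castRingHom ℚ)).Separable) :
    ∃ (s : Multiset ℤ[X]) (D : ℤ), D ≠ 0 ∧ (∀ g ∈ s, Irreducible g ∧ g ∣ f) ∧
      ∀ (p : ℕ) (r : ℤ), p.Prime → ¬(p : ℤ) ∣ D → (p : ℤ) ^ 2 ∣ f.eval r →
        ∃ g ∈ s, (p : ℤ) ^ 2 ∣ g.eval r := by
  have hf : f ≠ 0 := fun h => hsep.ne_zero (by rw [h, Polynomial.map_zero])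
  obtain ⟨D, u, v, hD, hbez⟩ := SquarefreeValues.exists_bezout hsep
  obtain ⟨s, hs, w, hw⟩ := UniqueFactorizationMonoid.exists_prime_factors f hf
  obtain ⟨c, hc, hc'⟩ := Polynomial.isUnit_iff.1 w.isUnit
  refine ⟨s, D, hD, fun g hg => ⟨(hs g hg).irreducible,
    (Multiset.dvd_prod hg).trans ⟨w, hw.symm⟩⟩, fun p r hp hpD hr => ?_⟩
  have hpI : Prime (p : ℤ) := Nat.prime_iff_prime_int.1 hp
  rw [← hc'] at hw
  refine sq_dvd_factor s hpI ?_ fun hd => hpD ?_
  · rw [← hw, eval_mul, eval_C] at hr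
    exact ((IsUnit.dvd_mul_right hc).1 hr)
  · have e := congrArg (eval r) hbez
    rw [eval_add, eval_mul, eval_mul, eval_C] at e
    rw [← e]
    refine dvd_add (((dvd_pow_self _ two_ne_zero).trans hr).mul_left _) (Dvd.dvd.mul_left ?_ _)
    rw [← hw, derivative_mul, derivative_C, mul_zero, add_zero, eval_mul]
    exact hd.mul_right _

/-- One class of `[-B, B]`. -/
theorem int_class_card {B d : ℕ} (S : Finset ℤ) (hS : ∀ a ∈ S, |a| ≤ (B : ℤ))
    (h : ∀ a ∈ S, ∀ a' ∈ S, (d : ℤ) ∣ a - a') : (S.card : ℝ) ≤ 2 * (B : ℝ) / d + 1 := by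
  have hcard : S.card ≤ 2 * B / d + 1 := by
    refine (card_le_card_of_injOn (fun a : ℤ => (a + (B : ℤ)).toNat / d)
      (t := range (2 * B / d + 1))
      (fun a ha => ?_) fun a ha a' ha' e => ?_).trans_eq (card_range _)
    · have h1 := abs_le.1 (hS a ha)
      simpa using Nat.lt_succ_of_le (Nat.div_le_div_right (a := (a + B).toNat) (by omega))
    · have h1 := abs_le.1 (hS a ha)
      have h2 := abs_le.1 (hS a' ha')
      have hm : (a' + B).toNat % d = (a + B).toNat % d := Nat.modEq_iff_dvd.2 (by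
        rw [Int.toNat_of_nonneg (by omega), Int.toNat_of_nonneg (by omega),
          show a + B - (a' + B) = a - a' by ring]
        exact h a ha a' ha')
      simp only at e
      have h3 : (a + B).toNat = (a' + B).toNat := by
        rw [← Nat.div_add_mod (a + B).toNat d, ← Nat.div_add_mod (a' + B).toNat d, hm, e]
      omega
  calc (S.card : ℝ) ≤ ((2 * B / d + 1 : ℕ) : ℝ) := Nat.cast_le.2 hcard
    _ ≤ _ := by
      push_cast
      linarith [(Nat.cast_div_le (α := ℝ) (m := 2 * B) (n := d)).trans_eq (by push_cast; rfl)]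

theorem mem_box {B : ℕ} {v : Fin 2 → ℤ} :
    v ∈ intBox 2 B ↔ |v 0| ≤ (B : ℤ) ∧ |v 1| ≤ (B : ℤ) := by
  rw [mem_intBox, Fin.forall_fin_two]

theorem pair_ext {v v' : Fin 2 → ℤ} (h0 : v 0 = v' 0) (h1 : v 1 = v' 1) : v = v' :=
  funext (Fin.forall_fin_two.2 ⟨h0, h1⟩)

/-- A prime dividing the ordinate but not the abscissa divides the form only at the top. -/
theorem not_dvd_form {p : ℕ} (hp : p.Prime) (hlead : ¬(p : ℤ) ∣ f.leadingCoeff) {x y : ℤ}
    (hx : ¬(p : ℤ) ∣ x) (hy : (p : ℤ) ∣ y) : ¬(p : ℤ) ∣ Thue.form f x y := by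
  rw [Thue.form, sum_range_succ, Nat.sub_self, pow_zero, mul_one, coeff_natDegree,
    dvd_add_right (dvd_sum fun i hi =>
      (dvd_pow hy (Nat.sub_ne_zero_of_lt (mem_range.1 hi))).mul_left _)]
  intro h
  rcases (Nat.prime_iff_prime_int.1 hp).dvd_or_dvd h with h | h
  · exact hlead h
  · exact hx ((Nat.prime_iff_prime_int.1 hp).dvd_of_dvd_pow h)

/-- **The points of one prime.** -/
theorem prime_points_card (he : e ≤ 1) {B p R : ℕ} (hB : 1 ≤ B) (hp : p.Prime)
    (hlead : ¬(p : ℤ) ∣ f.leadingCoeff) (hR : rootCount f p ≤ R) :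
    (((intBox 2 B).filter fun v => (p : ℤ) ^ 2 ∣ formValue e f (v 0) (v 1)).card : ℝ) ≤
      9 * (R + 2) * ((B : ℝ) ^ 2 / p ^ 2 + B) := by
  have hpI : Prime (p : ℤ) := Nat.prime_iff_prime_int.1 hp
  have : NeZero (p ^ 2) := ⟨(pow_pos hp.pos 2).ne'⟩
  set I := Finset.Icc (-(B : ℤ)) B with hI
  have hmemI : ∀ a ∈ I, |a| ≤ (B : ℤ) := fun a ha => abs_le.2 (mem_Icc.1 ha)
  set V := (I.filter ((p : ℤ) ∣ ·)) ×ˢ (I.filter ((p : ℤ) ∣ ·))
  set Y := I ×ˢ (I.filter (((p ^ 2 : ℕ) : ℤ) ∣ ·))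
  set G : ℤ → Finset ℤ := fun y => I.filter fun x =>
    IsUnit (y : ZMod (p ^ 2)) ∧ ((p ^ 2 : ℕ) : ℤ) ∣ Thue.form f x y
  have hsub : ((intBox 2 B).filter fun v => (p : ℤ) ^ 2 ∣ formValue e f (v 0) (v 1)).card ≤
      (V ∪ (Y ∪ I.biUnion fun y => (G y).image fun x => (x, y))).card := by
    refine card_le_card_of_injOn (fun v => (v 0, v 1)) (fun v hv => ?_)
      fun v _ v' _ h => pair_ext (congrArg Prod.fst h) (congrArg Prod.snd h)
    obtain ⟨hv1, hv2⟩ := mem_filter.1 hv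
    obtain ⟨hx, hy⟩ := mem_box.1 hv1
    have hxI : v 0 ∈ I := mem_Icc.2 (abs_le.1 hx)
    have hyI : v 1 ∈ I := mem_Icc.2 (abs_le.1 hy)
    simp only [mem_coe, mem_union]
    by_cases hpy : (p : ℤ) ∣ v 1
    · by_cases hpx : (p : ℤ) ∣ v 0
      · exact Or.inl (mem_product.2 ⟨mem_filter.2 ⟨hxI, hpx⟩, mem_filter.2 ⟨hyI, hpy⟩⟩)
      refine Or.inr (Or.inl (mem_product.2 ⟨hxI, mem_filter.2 ⟨hyI, ?_⟩⟩))
      push_cast
      have h := ((hpI.coprime_iff_not_dvd.2 (not_dvd_form hp hlead hpx hpy)).pow_left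
        (m := 2)).dvd_of_dvd_mul_right hv2
      interval_cases e
      · rw [pow_zero] at h
        exact absurd (isUnit_of_dvd_one ((dvd_pow_self _ two_ne_zero).trans h)) hpI.not_isUnit
      · rwa [pow_one] at h
    · refine Or.inr (Or.inr (mem_biUnion.2 ⟨v 1, hyI, mem_image.2 ⟨v 0,
        mem_filter.2 ⟨hxI, ?_, ?_⟩, rfl⟩⟩))
      · rw [ZMod.coe_int_isUnit_iff_isCoprime, Nat.cast_pow]
        exact (hpI.coprime_iff_not_dvd.2 hpy).pow_left
      · push_cast
        exact ((hpI.coprime_iff_not_dvd.2 hpy).pow_left.pow_right).dvd_of_dvd_mul_left hv2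
  have hIcard : (I.card : ℝ) = 2 * (B : ℝ) + 1 := by
    rw [hI, Int.card_Icc, show ((B : ℤ) + 1 - -(B : ℤ)).toNat = 2 * B + 1 by omega]
    push_cast; ring
  have hclass : ∀ d : ℕ, ((I.filter ((d : ℤ) ∣ ·)).card : ℝ) ≤ 2 * (B : ℝ) / d + 1 := fun d =>
    int_class_card _ (fun a ha => hmemI a (mem_filter.1 ha).1)
      fun a ha a' ha' => (mem_filter.1 ha).2.sub (mem_filter.1 ha').2
  have hV : (V.card : ℝ) ≤ (2 * (B : ℝ) / p + 1) * (2 * (B : ℝ) / p + 1) := by
    rw [card_product, Nat.cast_mul]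
    exact mul_le_mul (hclass p) (hclass p) (Nat.cast_nonneg _) (by positivity)
  have hY : (Y.card : ℝ) ≤ (2 * (B : ℝ) + 1) * (2 * (B : ℝ) / (p ^ 2 : ℕ) + 1) := by
    rw [card_product, Nat.cast_mul, hIcard]
    exact mul_le_mul_of_nonneg_left (hclass _) (by positivity)
  have hG : ∀ y, ((G y).card : ℝ) ≤ R * (2 * (B : ℝ) / (p ^ 2 : ℕ) + 1) := by
    intro y
    calc ((G y).card : ℝ)
        = ∑ r ∈ (G y).image (fun x => intRatio (p ^ 2) x y),
            (((G y).filter fun x => intRatio (p ^ 2) x y = r).card : ℝ) := by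
          exact_mod_cast card_eq_sum_card_image (fun x => intRatio (p ^ 2) x y) (G y)
      _ ≤ ∑ _r ∈ (G y).image (fun x => intRatio (p ^ 2) x y),
            (2 * (B : ℝ) / (p ^ 2 : ℕ) + 1) := by
          refine sum_le_sum fun r _ => int_class_card _
            (fun x hx => hmemI x (mem_filter.1 (mem_filter.1 hx).1).1) fun x hx x' hx' => ?_
          obtain ⟨hxG, hxr⟩ := mem_filter.1 hx
          obtain ⟨hxG', hxr'⟩ := mem_filter.1 hx'
          have hu := (mem_filter.1 hxG).2.1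
          rw [← ZMod.intCast_zmod_eq_zero_iff_dvd, Int.cast_sub, ← intRatio_mul (x := x) hu,
            ← intRatio_mul (x := x') hu, hxr, hxr', sub_self]
      _ ≤ _ := by
          rw [sum_const, nsmul_eq_mul]
          refine mul_le_mul_of_nonneg_right (Nat.cast_le.2 (le_trans (card_le_card ?_) hR))
            (by positivity)
          intro r hr
          obtain ⟨x, hx, rfl⟩ := mem_image.1 hr
          obtain ⟨-, hu, hd⟩ := mem_filter.1 hx
          refine mem_filter.2 ⟨mem_range.2 (ZMod.val_lt _), ?_⟩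
          rw [← Nat.cast_pow]
          exact (form_zmod f hu).1 hd
  have hU : ((I.biUnion fun y => (G y).image fun x => (x, y)).card : ℝ) ≤
      (2 * (B : ℝ) + 1) * (R * (2 * (B : ℝ) / (p ^ 2 : ℕ) + 1)) :=
    calc ((I.biUnion fun y => (G y).image fun x => (x, y)).card : ℝ)
        ≤ ∑ y ∈ I, ((G y).card : ℝ) := by
          exact_mod_cast card_biUnion_le.trans (sum_le_sum fun y _ => card_image_le)
      _ ≤ ∑ _y ∈ I, (R : ℝ) * (2 * (B : ℝ) / (p ^ 2 : ℕ) + 1) := sum_le_sum fun y _ => hG y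
      _ = _ := by rw [sum_const, nsmul_eq_mul, hIcard]
  have hmain : (((intBox 2 B).filter fun v => (p : ℤ) ^ 2 ∣ formValue e f (v 0) (v 1)).card : ℝ) ≤
      (V.card : ℝ) + ((Y.card : ℝ) + (I.biUnion fun y => (G y).image fun x => (x, y)).card) := by
    exact_mod_cast hsub.trans ((card_union_le _ _).trans
      (Nat.add_le_add_left (card_union_le _ _) _))
  refine hmain.trans ((add_le_add hV (add_le_add hY hU)).trans ?_)
  have hB1 : (1 : ℝ) ≤ B := Nat.one_le_cast.2 hB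
  set a : ℝ := (B : ℝ) / p with ha
  set q : ℝ := (B : ℝ) ^ 2 / p ^ 2 with hq
  have haq : a ^ 2 = q := by rw [ha, hq, div_pow]
  have haB : a ≤ B := div_le_self (by positivity) (Nat.one_le_cast.2 hp.one_lt.le)
  have e1 : 2 * (B : ℝ) / p = 2 * a := by rw [ha]; ring
  have e2 : (2 * (B : ℝ) + 1) * (2 * (B : ℝ) / (p ^ 2 : ℕ) + 1) ≤ 6 * q + 3 * B := by
    have h : (2 * (B : ℝ) + 1) ≤ 3 * B := by linarith
    refine (mul_le_mul_of_nonneg_right h (by positivity)).trans_eq ?_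
    rw [hq]; push_cast; ring
  have e3 := mul_le_mul_of_nonneg_left e2 (Nat.cast_nonneg (α := ℝ) R)
  have hq0 : 0 ≤ q := by positivity
  have hR0 : (0 : ℝ) ≤ R := Nat.cast_nonneg R
  rw [e1]
  nlinarith

/-- **A large prime has few coprime points.** -/
theorem large_points_card {B p R : ℕ} (hp : p.Prime) (hBp : 2 * B < p) (hR : rootCount f p ≤ R) :
    ((intBox 2 B).filter fun v => IsCoprime (v 0) (v 1) ∧ v 1 ≠ 0 ∧
      (p : ℤ) ^ 2 ∣ Thue.form f (v 0) (v 1)).card ≤ 2 * R := by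
  have hpI : Prime (p : ℤ) := Nat.prime_iff_prime_int.1 hp
  have : NeZero (p ^ 2) := ⟨(pow_pos hp.pos 2).ne'⟩
  set S := (intBox 2 B).filter fun v => IsCoprime (v 0) (v 1) ∧ v 1 ≠ 0 ∧
    (p : ℤ) ^ 2 ∣ Thue.form f (v 0) (v 1)
  have hunit : ∀ v ∈ S, IsUnit (v 1 : ZMod (p ^ 2)) := fun v hv => by
    obtain ⟨hv1, -, hy, -⟩ := mem_filter.1 hv
    rw [ZMod.coe_int_isUnit_iff_isCoprime, Nat.cast_pow]
    refine (hpI.coprime_iff_not_dvd.2 fun hd => ?_).pow_left
    have h1 := Int.le_of_dvd (abs_pos.2 hy) ((dvd_abs _ _).2 hd)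
    have h2 := (mem_box.1 hv1).2
    omega
  refine (card_le_card_of_injOn
    (fun v => (intRatio (p ^ 2) (v 0) (v 1), decide (0 < v 1)))
    (t := ((range (p ^ 2)).filter fun r : ℕ => (p : ℤ) ^ 2 ∣ f.eval (r : ℤ)) ×ˢ
      (univ : Finset Bool)) (fun v hv => ?_) fun v hv v' hv' he => ?_).trans ?_
  · refine mem_product.2 ⟨mem_filter.2 ⟨mem_range.2 (ZMod.val_lt _), ?_⟩, mem_univ _⟩
    rw [← Nat.cast_pow]
    refine (form_zmod f (hunit v hv)).1 ?_
    rw [Nat.cast_pow]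
    exact (mem_filter.1 hv).2.2.2
  · simp only [Prod.mk.injEq, decide_eq_decide] at he
    obtain ⟨hr, hsign⟩ := he
    obtain ⟨hv1, hc, hy, -⟩ := mem_filter.1 hv
    obtain ⟨hv1', hc', hy', -⟩ := mem_filter.1 hv'
    have hd : ((p ^ 2 : ℕ) : ℤ) ∣ v 0 * v' 1 - v' 0 * v 1 := by
      rw [← ZMod.intCast_zmod_eq_zero_iff_dvd]
      push_cast
      rw [← intRatio_mul (x := v 0) (hunit v hv), ← intRatio_mul (x := v' 0) (hunit v' hv'), hr]
      ring
    have hdet : v 0 * v' 1 - v' 0 * v 1 = 0 := by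
      refine Int.eq_zero_of_abs_lt_dvd hd ?_
      obtain ⟨hx1, hy1⟩ := mem_box.1 hv1
      obtain ⟨hx2, hy2⟩ := mem_box.1 hv1'
      have h1 : |v 0 * v' 1| ≤ (B : ℤ) * B := by
        rw [abs_mul]; exact mul_le_mul hx1 hy2 (abs_nonneg _) (Int.natCast_nonneg _)
      have h2 : |v' 0 * v 1| ≤ (B : ℤ) * B := by
        rw [abs_mul]; exact mul_le_mul hx2 hy1 (abs_nonneg _) (Int.natCast_nonneg _)
      have h3 : (2 * B + 1 : ℤ) * (2 * B + 1) ≤ ((p ^ 2 : ℕ) : ℤ) := by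
        push_cast
        rw [sq]
        exact mul_le_mul (by omega) (by omega) (by positivity) (by positivity)
      linarith [abs_sub (v 0 * v' 1) (v' 0 * v 1), mul_nonneg (Int.natCast_nonneg B)
        (Int.natCast_nonneg B), Int.natCast_nonneg B]
    have heq : v 0 * v' 1 = v' 0 * v 1 := sub_eq_zero.1 hdet
    have hd1 : v 1 ∣ v' 1 := hc.symm.dvd_of_dvd_mul_left ⟨v' 0, by linear_combination heq⟩
    have hd2 : v' 1 ∣ v 1 := hc'.symm.dvd_of_dvd_mul_left ⟨v 0, by linear_combination -heq⟩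
    have hyy : v 1 = v' 1 := by
      rcases Int.natAbs_eq_natAbs_iff.1 (Nat.dvd_antisymm (Int.natAbs_dvd_natAbs.2 hd1)
        (Int.natAbs_dvd_natAbs.2 hd2)) with h | h <;> omega
    refine pair_ext (mul_right_cancel₀ hy ?_) hyy
    rw [hyy] at heq ⊢
    exact heq
  · rw [card_product, card_univ, Fintype.card_bool, mul_comm]
    exact Nat.mul_le_mul_left 2 hR

/-- A bound for the values of a form. -/
theorem form_natAbs_le (g : ℤ[X]) {B : ℕ} {x y : ℤ} (hx : |x| ≤ (B : ℤ)) (hy : |y| ≤ (B : ℤ)) :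
    (Thue.form g x y).natAbs ≤
      (∑ i ∈ range (g.natDegree + 1), (g.coeff i).natAbs) * B ^ g.natDegree := by
  rw [Thue.form, sum_mul]
  refine (Int.natAbs_sum_le _ _).trans (sum_le_sum fun i hi => ?_)
  rw [Int.natAbs_mul, Int.natAbs_mul, Int.natAbs_pow, Int.natAbs_pow, mul_assoc]
  refine Nat.mul_le_mul_left _ ?_
  calc x.natAbs ^ i * y.natAbs ^ (g.natDegree - i) ≤ B ^ i * B ^ (g.natDegree - i) :=
        Nat.mul_le_mul (Nat.pow_le_pow_left (by rw [abs_le] at hx; omega) _)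
          (Nat.pow_le_pow_left (by rw [abs_le] at hy; omega) _)
    _ = _ := by rw [← pow_add, Nat.add_sub_cancel' (Nat.lt_succ_iff.1 (mem_range.1 hi))]

theorem pow_dvd_form (g : ℤ[X]) {q x y : ℤ} (hx : q ∣ x) (hy : q ∣ y) :
    q ^ g.natDegree ∣ Thue.form g x y := by
  rw [Thue.form]
  refine dvd_sum fun i hi => ?_
  rw [mul_assoc]
  refine Dvd.dvd.mul_left ?_ _
  rw [show g.natDegree = i + (g.natDegree - i) by
    have := mem_range.1 hi; omega, pow_add, Nat.add_sub_cancel_left]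
  exact mul_dvd_mul (pow_dvd_pow_of_dvd hx i) (pow_dvd_pow_of_dvd hy _)

/-- The points that pass the sieve up to `M` without a squarefree value. -/
def badPoints (e : ℕ) (f : ℤ[X]) (M B : ℕ) : Finset (Fin 2 → ℤ) :=
  (intBox 2 B).filter fun v => formValue e f (v 0) (v 1) ≠ 0 ∧
    (∀ p : ℕ, p.Prime → p ≤ M → ¬(p : ℤ) ^ 2 ∣ formValue e f (v 0) (v 1)) ∧
    ¬Squarefree (formValue e f (v 0) (v 1))

/-- Finitely many factors together. -/
theorem exists_huge_union_le (s : Finset ℤ[X])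
    (h : ∀ g ∈ s, 4 < g.natDegree → ∀ η : ℝ, 0 < η →
      ∃ L : ℕ, ∀ B : ℕ, (((intBox 2 B).filter fun v => IsCoprime (v 0) (v 1) ∧ v 1 ≠ 0 ∧
        ∃ p : ℕ, p.Prime ∧ L * B ^ 2 < p ∧ (p : ℤ) ^ 2 ∣ Thue.form g (v 0) (v 1)).card : ℝ) ≤
          η * (B : ℝ) ^ 2)
    {δ : ℝ} (hδ : 0 < δ) :
    ∃ L : ℕ, ∀ B : ℕ, (((intBox 2 B).filter fun v => IsCoprime (v 0) (v 1) ∧ v 1 ≠ 0 ∧
      ∃ g ∈ s, 4 < g.natDegree ∧ ∃ p : ℕ, p.Prime ∧ L * B ^ 2 < p ∧
        (p : ℤ) ^ 2 ∣ Thue.form g (v 0) (v 1)).card : ℝ) ≤ δ * (B : ℝ) ^ 2 := by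
  induction s using Finset.induction_on generalizing δ with
  | empty => exact ⟨0, fun B => by simp; positivity⟩
  | insert g s hg ih =>
    obtain ⟨L₁, hL₁⟩ := ih (fun g' hg' => h g' (mem_insert_of_mem hg')) (half_pos hδ)
    obtain ⟨L₂, hL₂⟩ : ∃ L : ℕ, 4 < g.natDegree → ∀ B : ℕ,
        (((intBox 2 B).filter fun v => IsCoprime (v 0) (v 1) ∧ v 1 ≠ 0 ∧
          ∃ p : ℕ, p.Prime ∧ L * B ^ 2 < p ∧ (p : ℤ) ^ 2 ∣ Thue.form g (v 0) (v 1)).card : ℝ) ≤
            δ / 2 * (B : ℝ) ^ 2 := by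
      by_cases h4 : 4 < g.natDegree
      · exact (h g (mem_insert_self g s) h4 _ (half_pos hδ)).imp fun L hL _ => hL
      · exact ⟨0, fun h' => absurd h' h4⟩
    refine ⟨L₁ + L₂, fun B => ?_⟩
    have h1 := hL₁ B
    by_cases h4 : 4 < g.natDegree
    · refine (Nat.cast_le.2 ((card_le_card fun v hv => ?_).trans (card_union_le _ _))).trans
        ((Nat.cast_add _ _).trans_le ((add_le_add h1 (hL₂ h4 B)).trans_eq (by ring)))
      obtain ⟨hv1, hc, hy, g', hg', hd, p, hp, hLp, hdv⟩ := mem_filter.1 hv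
      rw [add_mul] at hLp
      rcases mem_insert.1 hg' with rfl | hg'
      · exact mem_union_right _ (mem_filter.2 ⟨hv1, hc, hy, p, hp, by omega, hdv⟩)
      · exact mem_union_left _
          (mem_filter.2 ⟨hv1, hc, hy, g', hg', hd, p, hp, by omega, hdv⟩)
    · refine le_trans (Nat.cast_le.2 (card_le_card fun v hv => ?_))
        (h1.trans (mul_le_mul_of_nonneg_right (half_le_self hδ.le) (sq_nonneg _)))
      obtain ⟨hv1, hc, hy, g', hg', hd, p, hp, hLp, hdv⟩ := mem_filter.1 hv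
      rw [add_mul] at hLp
      rcases mem_insert.1 hg' with rfl | hg'
      · exact absurd hd h4
      · exact mem_filter.2 ⟨hv1, hc, hy, g', hg', hd, p, hp, by omega, hdv⟩

/-- **The tail of the sieve is negligible**, given that few points have a prime square beyond
`L B²` in a factor of degree over four. -/
theorem exists_eventually_badPoints (hsep : (f.map (Int.castRingHom ℚ)).Separable) (he : e ≤ 1)
    (hhuge : ∀ g : ℤ[X], Irreducible g → g ∣ f → 4 < g.natDegree → ∀ η : ℝ, 0 < η →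
      ∃ L : ℕ, ∀ B : ℕ, (((intBox 2 B).filter fun v => IsCoprime (v 0) (v 1) ∧ v 1 ≠ 0 ∧
        ∃ p : ℕ, p.Prime ∧ L * B ^ 2 < p ∧ (p : ℤ) ^ 2 ∣ Thue.form g (v 0) (v 1)).card : ℝ) ≤
          η * (B : ℝ) ^ 2)
    {δ : ℝ} (hδ : 0 < δ) :
    ∃ M₁ : ℕ, ∀ M, M₁ ≤ M → ∀ᶠ B : ℕ in atTop,
      ((badPoints e f M B).card : ℝ) ≤ δ * (B : ℝ) ^ 2 := by
  obtain ⟨R, hR⟩ := SquarefreeValues.exists_rootCount_bound hsep
  obtain ⟨s, D, hD, hs, hfactor⟩ := exists_factors hsep
  have hlead : f.leadingCoeff ≠ 0 :=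
    leadingCoeff_ne_zero.2 fun h => hsep.ne_zero (by rw [h, Polynomial.map_zero])
  set C : ℝ := 9 * ((R : ℝ) + 2) with hC
  have hC0 : 0 < C := by positivity
  set H := (s.map fun g => ∑ i ∈ range (g.natDegree + 1), (g.coeff i).natAbs).sum with hH
  set H₀ := ∑ i ∈ range (f.natDegree + 1), (f.coeff i).natAbs with hH₀
  obtain ⟨L₀, hL₀⟩ := exists_huge_union_le s.toFinset (fun g hg =>
    hhuge g (hs g (Multiset.mem_toFinset.1 hg)).1 (hs g (Multiset.mem_toFinset.1 hg)).2)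
      (show 0 < δ / 8 by positivity)
  set L := H + 1 + L₀ with hL
  obtain ⟨M₀, hM₀⟩ := exists_nat_ge (4 * C / δ)
  refine ⟨max (max M₀ 1) (max D.natAbs f.leadingCoeff.natAbs), fun M hM => ?_⟩
  simp only [max_le_iff] at hM
  obtain ⟨⟨hM0, hM1⟩, hMD, hMlead⟩ := hM
  have hgood : ∀ p : ℕ, M < p → ¬(p : ℤ) ∣ D ∧ ¬(p : ℤ) ∣ f.leadingCoeff := fun p hp =>
    ⟨fun h => absurd (Nat.le_of_dvd (Int.natAbs_pos.2 hD) (Int.natCast_dvd.1 h)) (by omega),
      fun h => absurd (Nat.le_of_dvd (Int.natAbs_pos.2 hlead) (Int.natCast_dvd.1 h)) (by omega)⟩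
  filter_upwards [SquarefreeValues.eventually_primeCounting_mul_le 2
      (show 0 < δ / (4 * C) by positivity),
    (tendsto_pow_atTop (α := ℕ) two_ne_zero).eventually
      (SquarefreeValues.eventually_primeCounting_mul_le L
        (show 0 < δ / (16 * ((R : ℝ) + 1)) by positivity)),
    (tendsto_natCast_atTop_atTop (R := ℝ)).eventually (eventually_ge_atTop (12 / δ)),
    eventually_ge_atTop (H₀ + 1)] with B hpi1 hpi2 hBδ hB
  set box := intBox 2 B with hbox
  set Ps := (Icc 1 (2 * B)).filter fun p => p.Prime ∧ M < p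
  set Pl := (Icc 1 (L * B ^ 2)).filter fun p => p.Prime ∧ M < p ∧ 2 * B < p
  set small := Ps.biUnion fun p =>
    box.filter fun v => (p : ℤ) ^ 2 ∣ formValue e f (v 0) (v 1)
  set large := Pl.biUnion fun p => box.filter fun v =>
    IsCoprime (v 0) (v 1) ∧ v 1 ≠ 0 ∧ (p : ℤ) ^ 2 ∣ Thue.form f (v 0) (v 1)
  set huge := box.filter fun v => IsCoprime (v 0) (v 1) ∧ v 1 ≠ 0 ∧
    ∃ g ∈ s.toFinset, 4 < g.natDegree ∧ ∃ p : ℕ, p.Prime ∧ L₀ * B ^ 2 < p ∧
      (p : ℤ) ^ 2 ∣ Thue.form g (v 0) (v 1)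
  set axis := box.filter fun v => v 1 = 0
  have hcover : badPoints e f M B ⊆ small ∪ (large ∪ (huge ∪ axis)) := by
    intro v hv
    obtain ⟨hv1, hne, hsieve, hnsq⟩ := mem_filter.1 hv
    obtain ⟨hx, hy⟩ := mem_box.1 hv1
    obtain ⟨p, hp, hpd⟩ := SquarefreeValues.exists_sq_dvd hnsq
    have hMp : M < p := not_le.1 fun h => hsieve p hp h hpd
    simp only [mem_union]
    by_cases hy0 : v 1 = 0
    · exact Or.inr (Or.inr (Or.inr (mem_filter.2 ⟨hv1, hy0⟩)))
    by_cases hp2 : p ≤ 2 * B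
    · exact Or.inl (mem_biUnion.2 ⟨p, mem_filter.2 ⟨mem_Icc.2 ⟨hp.one_le, hp2⟩, hp, hMp⟩,
        mem_filter.2 ⟨hv1, hpd⟩⟩)
    have hpI : Prime (p : ℤ) := Nat.prime_iff_prime_int.1 hp
    have hpy : ¬(p : ℤ) ∣ v 1 := fun hd => by
      have h1 := Int.le_of_dvd (abs_pos.2 hy0) ((dvd_abs _ _).2 hd)
      omega
    have hpf : (p : ℤ) ^ 2 ∣ Thue.form f (v 0) (v 1) :=
      ((hpI.coprime_iff_not_dvd.2 hpy).pow_left.pow_right).dvd_of_dvd_mul_left hpd
    by_cases hk : e + f.natDegree ≤ 1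
    · exfalso
      have h1 : p ^ 2 ≤ (Thue.form f (v 0) (v 1)).natAbs := by
        refine Nat.le_of_dvd (Int.natAbs_pos.2 (right_ne_zero_of_mul hne)) ?_
        rw [← Int.natCast_dvd, Nat.cast_pow]
        exact hpf
      have h2 := h1.trans (form_natAbs_le f hx hy)
      rw [← hH₀] at h2
      have h3 : H₀ * B ^ f.natDegree ≤ B * B := Nat.mul_le_mul (by omega)
        ((Nat.pow_le_pow_right (by omega) (by omega : f.natDegree ≤ 1)).trans_eq (pow_one B))
      have h4 : (2 * B + 1) * (2 * B + 1) ≤ p ^ 2 := by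
        rw [sq]; exact Nat.mul_le_mul (by omega) (by omega)
      nlinarith
    by_cases hc : IsCoprime (v 0) (v 1)
    swap
    · have hg : Nat.gcd (v 0).natAbs (v 1).natAbs ≠ 1 := fun h =>
        hc (Int.isCoprime_iff_nat_coprime.2 h)
      obtain ⟨q, hq, hqd⟩ := Nat.exists_prime_and_dvd hg
      have hqx : (q : ℤ) ∣ v 0 := Int.natCast_dvd.2 (hqd.trans (Nat.gcd_dvd_left _ _))
      have hqy : (q : ℤ) ∣ v 1 := Int.natCast_dvd.2 (hqd.trans (Nat.gcd_dvd_right _ _))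
      have hq2 : (q : ℤ) ^ 2 ∣ formValue e f (v 0) (v 1) := by
        refine dvd_trans (pow_dvd_pow _ (by omega : 2 ≤ e + f.natDegree)) ?_
        rw [pow_add]
        exact mul_dvd_mul (pow_dvd_pow_of_dvd hqy e) (pow_dvd_form f hqx hqy)
      refine Or.inl (mem_biUnion.2 ⟨q, mem_filter.2 ⟨mem_Icc.2 ⟨hq.one_le, ?_⟩, hq,
        not_le.1 fun h => hsieve q hq h hq2⟩, mem_filter.2 ⟨hv1, hq2⟩⟩)
      have h1 := Int.le_of_dvd (abs_pos.2 hy0) ((dvd_abs _ _).2 hqy)
      omega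
    by_cases hpL : p ≤ L * B ^ 2
    · exact Or.inr (Or.inl (mem_biUnion.2 ⟨p, mem_filter.2
        ⟨mem_Icc.2 ⟨hp.one_le, hpL⟩, hp, hMp, not_le.1 hp2⟩, mem_filter.2 ⟨hv1, hc, hy0, hpf⟩⟩))
    have : NeZero (p ^ 2) := ⟨(pow_pos hp.pos 2).ne'⟩
    have hu : IsUnit (v 1 : ZMod (p ^ 2)) := by
      rw [ZMod.coe_int_isUnit_iff_isCoprime, Nat.cast_pow]
      exact (hpI.coprime_iff_not_dvd.2 hpy).pow_left
    rw [← Nat.cast_pow] at hpf
    have hev := (form_zmod f hu).1 hpf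
    rw [Nat.cast_pow] at hev
    obtain ⟨g, hg, hgr⟩ := hfactor p _ hp (hgood p hMp).1 hev
    rw [← Nat.cast_pow] at hgr
    have hgd := Int.natCast_dvd.1 ((form_zmod g hu).2 hgr)
    have hg0 : Thue.form g (v 0) (v 1) ≠ 0 := fun h => by
      refine right_ne_zero_of_mul hne ?_
      have e1 := Thue.form_eq_mul (K := ℚ) g (v 0) (v 1) hy0
      rw [h, Int.cast_zero] at e1
      have hy' : ((v 1 : ℤ) : ℚ) ≠ 0 := Int.cast_ne_zero.2 hy0
      have e2 := (mul_eq_zero.1 e1.symm).resolve_left (pow_ne_zero _ hy')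
      have e3 : ((Thue.form f (v 0) (v 1) : ℤ) : ℚ) = 0 := by
        rw [Thue.form_eq_mul (K := ℚ) f (v 0) (v 1) hy0,
          eval_eq_zero_of_dvd_of_eval_eq_zero
            (Polynomial.map_dvd (Int.castRingHom ℚ) (hs g hg).2) e2, mul_zero]
      exact_mod_cast e3
    have hgS : g ∈ s.toFinset := Multiset.mem_toFinset.2 hg
    by_cases hg4 : 4 < g.natDegree
    · refine Or.inr (Or.inr (Or.inl (mem_filter.2 ⟨hv1, hc, hy0, g, hgS, hg4, p, hp,
        (Nat.mul_le_mul_right _ (Nat.le_add_left L₀ (H + 1))).trans_lt (not_le.1 hpL), ?_⟩)))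
      rw [← Nat.cast_pow]
      exact Int.natCast_dvd.2 hgd
    refine absurd ((Nat.pow_le_pow_iff_left two_ne_zero).1 (le_trans (b := H * B ^ 4) ?_ ?_)) hpL
    · refine (Nat.le_of_dvd (Int.natAbs_pos.2 hg0) hgd).trans ((form_natAbs_le g hx hy).trans ?_)
      refine Nat.mul_le_mul ?_ (Nat.pow_le_pow_right (by omega) (not_lt.1 hg4))
      exact Multiset.le_sum_of_mem (Multiset.mem_map_of_mem
        (fun g => ∑ i ∈ range (g.natDegree + 1), (g.coeff i).natAbs) hg)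
    · rw [mul_pow, ← pow_mul]
      exact Nat.mul_le_mul_right _
        ((show H ≤ L by omega).trans (Nat.le_self_pow two_ne_zero _))
  have hBpos : (1 : ℝ) ≤ B := Nat.one_le_cast.2 (by omega)
  have hsmall : (small.card : ℝ) ≤ δ / 2 * (B : ℝ) ^ 2 := by
    have hsum : ∑ p ∈ Ps, ((p : ℝ) ^ 2)⁻¹ ≤ (M : ℝ)⁻¹ := by
      have hsub : Ps ⊆ Ioc M (max (2 * B) M) := fun p hp => by
        obtain ⟨hp1, -, hp2⟩ := mem_filter.1 hp
        rw [mem_Icc] at hp1
        rw [mem_Ioc]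
        omega
      refine (sum_le_sum_of_subset_of_nonneg hsub fun p _ _ => by positivity).trans ?_
      refine (sum_Ioc_inv_sq_le_sub (α := ℝ) (by omega) (le_max_right _ M)).trans ?_
      linarith [show (0 : ℝ) ≤ ((max (2 * B) M : ℕ) : ℝ)⁻¹ by positivity]
    have hcardPs : (Ps.card : ℝ) ≤ δ / (4 * C) * B := by
      refine le_trans (Nat.cast_le.2 ?_) hpi1
      rw [Nat.primeCounting_eq_primeCounting'_succ, ← Nat.primesBelow_card_eq_primeCounting']
      refine card_le_card fun p hp => Nat.mem_primesBelow.2 ?_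
      obtain ⟨hp1, hp2, -⟩ := mem_filter.1 hp
      rw [mem_Icc] at hp1
      exact ⟨by omega, hp2⟩
    have hCM : C * (M : ℝ)⁻¹ ≤ δ / 4 := by
      rw [div_le_iff₀ hδ] at hM₀
      rw [mul_inv_le_iff₀ (Nat.cast_pos.2 (by omega))]
      have : (M₀ : ℝ) ≤ M := Nat.cast_le.2 hM0
      nlinarith
    calc (small.card : ℝ) ≤ ∑ p ∈ Ps,
          ((box.filter fun v => (p : ℤ) ^ 2 ∣ formValue e f (v 0) (v 1)).card : ℝ) := by
          exact_mod_cast card_biUnion_le
      _ ≤ ∑ p ∈ Ps, (C * (B : ℝ) ^ 2 * ((p : ℝ) ^ 2)⁻¹ + C * B) := sum_le_sum fun p hp => by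
          obtain ⟨-, hp', hMp⟩ := mem_filter.1 hp
          exact (prime_points_card he (by omega) hp' (hgood p hMp).2 (hR p hp')).trans_eq
            (by rw [hC]; ring)
      _ = C * (B : ℝ) ^ 2 * ∑ p ∈ Ps, ((p : ℝ) ^ 2)⁻¹ + Ps.card * (C * B) := by
          rw [sum_add_distrib, ← mul_sum, sum_const, nsmul_eq_mul]
      _ ≤ C * (B : ℝ) ^ 2 * (M : ℝ)⁻¹ + δ / (4 * C) * B * (C * B) := by gcongr
      _ ≤ _ := by
          rw [show δ / (4 * C) * (B : ℝ) * (C * B) = δ / 4 * (B : ℝ) ^ 2 by field_simp]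
          nlinarith [mul_le_mul_of_nonneg_right hCM (sq_nonneg (B : ℝ))]
  have hlarge : (large.card : ℝ) ≤ δ / 8 * (B : ℝ) ^ 2 := by
    have h1 : large.card ≤ Pl.card * (2 * R) := by
      refine card_biUnion_le.trans ?_
      rw [← smul_eq_mul, ← sum_const]
      exact sum_le_sum fun p hp => large_points_card (mem_filter.1 hp).2.1
        (mem_filter.1 hp).2.2.2 (hR p (mem_filter.1 hp).2.1)
    have h2 : (Pl.card : ℝ) ≤ δ / (16 * ((R : ℝ) + 1)) * (B : ℝ) ^ 2 := by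
      refine le_trans (Nat.cast_le.2 ?_) (hpi2.trans_eq (by push_cast; rfl))
      rw [Nat.primeCounting_eq_primeCounting'_succ, ← Nat.primesBelow_card_eq_primeCounting']
      refine card_le_card fun p hp => Nat.mem_primesBelow.2 ?_
      obtain ⟨hp1, hp2, -⟩ := mem_filter.1 hp
      rw [mem_Icc] at hp1
      exact ⟨by omega, hp2⟩
    refine (Nat.cast_le.2 h1).trans ?_
    push_cast
    refine (mul_le_mul h2 (show 2 * (R : ℝ) ≤ 2 * (R + 1) by linarith) (by positivity)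
      (by positivity)).trans_eq ?_
    field_simp
    ring
  have hhugeB : (huge.card : ℝ) ≤ δ / 8 * (B : ℝ) ^ 2 := hL₀ B
  have haxis : (axis.card : ℝ) ≤ δ / 4 * (B : ℝ) ^ 2 := by
    have h1 : axis.card ≤ (Finset.Icc (-(B : ℤ)) B).card := by
      refine card_le_card_of_injOn (fun v => v 0)
        (fun v hv => mem_Icc.2 (abs_le.1 (mem_box.1 (mem_filter.1 hv).1).1))
        fun v hv v' hv' h => pair_ext h ?_
      rw [(mem_filter.1 hv).2, (mem_filter.1 hv').2]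
    rw [Int.card_Icc, show ((B : ℤ) + 1 - -(B : ℤ)).toNat = 2 * B + 1 by omega] at h1
    refine (Nat.cast_le.2 h1).trans ?_
    push_cast
    rw [div_le_iff₀ hδ] at hBδ
    nlinarith
  have hcard : ((badPoints e f M B).card : ℝ) ≤
      (small.card : ℝ) + ((large.card : ℝ) + ((huge.card : ℝ) + axis.card)) := by
    exact_mod_cast (card_le_card hcover).trans ((card_union_le _ _).trans (Nat.add_le_add_left
      ((card_union_le _ _).trans (Nat.add_le_add_left (card_union_le _ _) _)) _))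
  linarith

end FA.GreavesForms

end
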